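/-
S17lib / WMW / Unr  (helper2) — Project G (S17), block (WMW), file 1.

**Open + all inertia groups outside `S`  ⇒  contains a level unramified outside `S`.**
A subgroup `H ≤ G_ℚ` containing `Gal(ℚ̄/L)` for a finite `L/ℚ` and every inertia subgroup at every
place over a prime outside `S` contains `Gal(ℚ̄/F)` for an `F` with `F.IsUnramifiedOutside S`
(namely `F = ℚ̄^H`; infinite Galois correspondence for the open, hence closed, subgroup `H`).
-/
import Mathlib
import Fermat.Prelude.Def_GroupCohomology_ContinuousUnramified
import Fermat.Agent.S55lib.Iface.Smooth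

set_option autoImplicit false

noncomputable section

namespace Fermat.Agent.S17lib.WMW

open IntermediateField

local notation "Qb" => AlgebraicClosure ℚ
local notation "GQ" => (AlgebraicClosure ℚ ≃ₐ[ℚ] AlgebraicClosure ℚ)

/-- `H` contains all inertia subgroups at the primes outside `S` -/
def ContainsInertiaOutside (S : Finset Nat.Primes) (H : Subgroup GQ) : Prop :=
  ∀ q : Nat.Primes, q ∉ S → ∀ A : ValuationSubring Qb, A.LiesOverPrime (q : ℕ) →
    A.inertiaSubgroupIn ℚ ≤ H

/-- **the fixed field of an open subgroup containing the inertia groups outside `S` is a level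
unramified outside `S`, with fixing subgroup `H` itself.** -/
theorem exists_unrLevel_le (S : Finset Nat.Primes) (H : Subgroup GQ)
    (hopen : ∃ L : IntermediateField ℚ Qb, FiniteDimensional ℚ L ∧ L.fixingSubgroup ≤ H)
    (hin : ContainsInertiaOutside S H) :
    ∃ F : IntermediateField ℚ Qb, F.IsUnramifiedOutside S ∧ F.fixingSubgroup ≤ H := by
  have hGal : IsGalois ℚ Qb := ⟨⟩
  obtain ⟨L, hL, hLH⟩ := hopen
  have hopenH : IsOpen (H : Set GQ) :=
    Subgroup.isOpen_mono hLH (IntermediateField.fixingSubgroup_isOpen L)
  have hclosed : IsClosed (H : Set GQ) := Subgroup.isClosed_of_isOpen H hopenH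
  have hfix : (fixedField H).fixingSubgroup = H :=
    InfiniteGalois.fixingSubgroup_fixedField (⟨H, hclosed⟩ : ClosedSubgroup GQ)
  have hle : fixedField H ≤ L := by
    have h1 : fixedField H ≤ fixedField L.fixingSubgroup := fixedField_antitone hLH
    rwa [InfiniteGalois.fixedField_fixingSubgroup] at h1
  refine ⟨fixedField H, ⟨?_, fun q hq A hA => ?_⟩, hfix.le⟩
  · exact FiniteDimensional.of_injective (IntermediateField.inclusion hle).toLinearMap
      (IntermediateField.inclusion_injective hle)
  · rw [hfix]
    exact hin q hq A hA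

end Fermat.Agent.S17lib.WMW

end
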