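/-
S17lib / WMW / Kummer  (helper2) — Project G (S17), block (WMW), file 2.

**Weak Mordell–Weil for `J₀(N)` at an odd prime `p`**: `J₀(N)(ℚ) / p J₀(N)(ℚ)` is finite.

`J = JZero N`, `G = G_ℚ`, `S` = the primes dividing `N p`.
* `torsRep N p : Rep ℤ G_ℚ` = `J[p]`; it is finite (`S19lib.T.finite_tors_nat`), killed by `p`, and smooth for
  the topology of `G_S` (`S55lib.unrBasis S`): stabilisers are open (`S29lib.GH.finiteLevel_fix_class`) and
  contain the inertia groups outside `S` (`S29lib.GH.unram_tors`, i.e. S18 + S37lib), hence contain a level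
  unramified outside `S` (`WMW.exists_unrLevel_le`).
* for a rational `x` and `p • y = x` the Kummer cocycle `σ ↦ σ y − y` has values in `J[p]`, and the stabiliser
  of `y` contains the inertia groups outside `S` (reduction at `A ∣ ℓ ∤ N p` is inertia-invariant on all of
  `J(ℚ̄)` and injective on `J[p]`), so the cocycle is a smooth cocycle.
* the smooth 1-cocycles form a FINITE set (`S56lib.Fin.finite_Z1_of_trivial_on` + `finite_H1Fp_global`).
* two rational points with the same cocycle differ by `p` times a rational point.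
-/
import Mathlib
import Fermat.Agent.S17lib.WMW.Unr
import Fermat.Agent.S56lib.Fin.H1Gen
import Fermat.Agent.S29lib.GH.Local
import Fermat.Agent.S29lib.GH.OpenStab
import Fermat.Agent.S19lib.T.Tors
import Fermat.Agent.S15lib.Desc.Final

set_option autoImplicit false
set_option linter.unusedSectionVars false
set_option linter.style.haveILetI false

noncomputable section

namespace Fermat.Agent.S17lib.WMW

open ModularCurve AlgebraicCurve IntermediateField groupCohomology
open Fermat.Agent.S29lib Fermat.Agent.S55lib Fermat.Agent.S56lib.Fin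

local notation "Qb" => AlgebraicClosure ℚ

variable (N : ℕ) [NeZero N] (p : ℕ) [hp : Fact p.Prime]

/-! ### the set of bad primes -/

/-- the primes dividing `N p` -/
def badPrimes : Finset Nat.Primes :=
  (Nat.primeFactors (N * p)).attach.image fun q => ⟨q.1, Nat.prime_of_mem_primeFactors q.2⟩

theorem mem_badPrimes {q : Nat.Primes} : q ∈ badPrimes N p ↔ (q : ℕ) ∣ N * p := by
  have hNp : N * p ≠ 0 := mul_ne_zero (NeZero.ne N) hp.out.ne_zero
  unfold badPrimes
  rw [Finset.mem_image]
  constructor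
  · rintro ⟨⟨a, ha⟩, -, rfl⟩
    exact Nat.dvd_of_mem_primeFactors ha
  · intro h
    exact ⟨⟨(q : ℕ), Nat.mem_primeFactors.2 ⟨q.2, h, hNp⟩⟩, Finset.mem_attach _ _, Subtype.ext rfl⟩

theorem p_mem_badPrimes : (⟨p, hp.out⟩ : Nat.Primes) ∈ badPrimes N p :=
  (mem_badPrimes N p).2 (Dvd.intro_left N rfl)

/-! ### the module `J[p]` -/

/-- the action of `G_ℚ` on `J[p]` -/
def torsRho : Representation ℤ GQ (Tors N p) where
  toFun σ :=
    { toFun := fun x => ⟨σ • (x : JZero N), smul_mem_Tors σ x.2⟩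
      map_add' := fun x y => Subtype.ext (smul_add σ (x : JZero N) (y : JZero N))
      map_smul' := fun m x => Subtype.ext (galois_smul_zsmul σ m (x : JZero N)) }
  map_one' := by
    ext x
    exact one_smul GQ (x : JZero N)
  map_mul' σ τ := by
    ext x
    exact mul_smul σ τ (x : JZero N)

/-- `J₀(N)(ℚ̄)[p]` as a `ℤ[G_ℚ]`-module -/
def torsRep : Rep.{0} ℤ GQ := Rep.of (torsRho N p)

/-- the underlying class of an element of `J[p]` -/
def toJ (a : torsRep N p) : JZero N := Subtype.val (p := fun x => x ∈ Tors N p) a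

theorem toJ_mem (a : torsRep N p) : toJ N p a ∈ Tors N p :=
  Subtype.property (p := fun x => x ∈ Tors N p) a

theorem toJ_injective : Function.Injective (toJ N p) := fun _ _ h => Subtype.ext h

theorem toJ_rho (σ : GQ) (a : torsRep N p) : toJ N p ((torsRep N p).ρ σ a) = σ • toJ N p a := rfl

theorem nsmul_toJ (a : torsRep N p) : p • toJ N p a = 0 := by
  rw [← natCast_zsmul]
  exact (Submodule.mem_torsionBy_iff _ _).1 (toJ_mem N p a)

instance : Finite (torsRep N p) :=
  (Fermat.Agent.S19lib.T.finite_tors_nat N p hp.out.ne_zero).to_subtype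

theorem torsRep_nsmul (a : torsRep N p) : p • a = 0 := by
  apply toJ_injective N p
  have h1 : toJ N p (p • a) = p • toJ N p a :=
    map_nsmul (Tors N p).subtype p (show ↥(Tors N p) from a)
  rw [h1, nsmul_toJ]
  rfl

/-- Galois commutes with multiplication by integers -/
theorem gal_nsmul (σ : GQ) (n : ℕ) (y : JZero N) : σ • (n • y) = n • (σ • y) :=
  map_nsmul (DistribSMul.toAddMonoidHom (JZero N) σ) n y

/-! ### stabilisers -/

/-- the stabiliser of a class -/
def stab (y : JZero N) : Subgroup GQ where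
  carrier := {σ | σ • y = y}
  mul_mem' := by
    intro σ τ hσ hτ
    show (σ * τ) • y = y
    rw [mul_smul, show τ • y = y from hτ, show σ • y = y from hσ]
  one_mem' := one_smul GQ y
  inv_mem' := by
    intro σ hσ
    show σ⁻¹ • y = y
    conv_lhs => rw [← show σ • y = y from hσ]
    rw [inv_smul_smul]

theorem mem_stab {y : JZero N} {σ : GQ} : σ ∈ stab N y ↔ σ • y = y := Iff.rfl

/-- stabilisers are open -/
theorem stab_open (y : JZero N) :
    ∃ L : IntermediateField ℚ Qb, FiniteDimensional ℚ L ∧ L.fixingSubgroup ≤ stab N y := by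
  obtain ⟨L, hL, h⟩ := GH.finiteLevel_fix_class N y
  refine ⟨L, hL, fun σ hσ => h σ fun z hz => ?_⟩
  exact (IntermediateField.mem_fixingSubgroup_iff L σ).1 hσ z hz

/-- **division points of inertia-fixed points are inertia-fixed** (outside `N p`) -/
theorem inertia_smul_eq_of_nsmul (ℓ : ℕ) (hℓ : ℓ.Prime) (hℓNp : ¬ ℓ ∣ N * p)
    (A : ValuationSubring Qb) (hA : A.LiesOverPrime ℓ) (σ : GQ) (hσ : σ ∈ A.inertiaSubgroupIn ℚ)
    (y : JZero N) (hy : σ • (p • y) = p • y) : σ • y = y := by
  have hℓN : ¬ ℓ ∣ N := fun h => hℓNp (Dvd.dvd.mul_right h p)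
  have hℓp : ¬ ℓ ∣ p := fun h => hℓNp (Dvd.dvd.mul_left h N)
  obtain ⟨-, Fr, hinert, -, -⟩ := GH.inputs N ℓ hℓ hℓN A hA
  have hmem : σ • y - y ∈ Tors N p := by
    rw [Submodule.mem_torsionBy_iff, natCast_zsmul, nsmul_sub, ← gal_nsmul, hy, sub_self]
  have h0 : reductionModL A N (σ • y - y) = 0 := by
    rw [map_sub, hinert σ hσ y, sub_self]
  exact sub_eq_zero.mp (GH.eq_zero_of_reduction_eq_zero N ℓ hℓ hℓN A hA p hℓp _ hmem h0)

/-- the stabiliser of a `p`-division point of a rational point contains the inertia groups outside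
`N p` -/
theorem stab_containsInertia (y : JZero N) (hy : ∀ σ : GQ, σ • (p • y) = p • y) :
    ContainsInertiaOutside (badPrimes N p) (stab N y) := by
  intro q hq A hA σ hσ
  exact inertia_smul_eq_of_nsmul N p q q.2 (fun h => hq ((mem_badPrimes N p).2 h)) A hA σ hσ y (hy σ)

/-- a level unramified outside `N p` fixing a `p`-division point of a rational point -/
theorem exists_level_stab (y : JZero N) (hy : ∀ σ : GQ, σ • (p • y) = p • y) :
    ∃ F : IntermediateField ℚ Qb, F.IsUnramifiedOutside (badPrimes N p) ∧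
      F.fixingSubgroup ≤ stab N y :=
  exists_unrLevel_le _ _ (stab_open N y) (stab_containsInertia N p y hy)

/-- `J[p]` is a smooth `G_S`-module -/
theorem torsRep_isSm : IsSm (unrBasis (badPrimes N p)) (torsRep N p) := by
  intro a
  have hy : ∀ σ : GQ, σ • (p • toJ N p a) = p • toJ N p a := by
    intro σ
    rw [nsmul_toJ]
    exact smul_zero (A := JZero N) σ
  obtain ⟨F, hF, hle⟩ := exists_level_stab N p (toJ N p a) hy
  obtain ⟨U, hU, hUle⟩ := OpenBasis.exists_ofLevel_le (r := MonoidHom.id GQ)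
    (𝓛 := LevelClass.unr (badPrimes N p)) hF
  refine ⟨U, hU, fun s hs => toJ_injective N p ?_⟩
  rw [toJ_rho]
  exact hle (hUle hs)

/-! ### the Kummer cocycle -/

/-- the Kummer cocycle of a `p`-division point `y` of a rational point -/
def kummerFun (y : JZero N) (hy : ∀ σ : GQ, σ • (p • y) = p • y) : GQ → torsRep N p :=
  fun σ => (⟨σ • y - y, by
    rw [Submodule.mem_torsionBy_iff, natCast_zsmul, nsmul_sub, ← gal_nsmul, hy σ,
      sub_self]⟩ : ↥(Tors N p))

theorem toJ_kummerFun (y : JZero N) (hy : ∀ σ : GQ, σ • (p • y) = p • y) (σ : GQ) :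
    toJ N p (kummerFun N p y hy σ) = σ • y - y := rfl

theorem kummerFun_cocycle (y : JZero N) (hy : ∀ σ : GQ, σ • (p • y) = p • y) :
    kummerFun N p y hy ∈ cocycles₁ (torsRep N p) := by
  rw [mem_cocycles₁_iff]
  intro g h
  apply toJ_injective N p
  show (g * h) • y - y = g • (h • y - y) + (g • y - y)
  rw [mul_smul, smul_sub]
  abel

theorem kummerFun_isLC (y : JZero N) (hy : ∀ σ : GQ, σ • (p • y) = p • y) :
    Sm.IsLC₁ (MonoidHom.id GQ) (LevelClass.unr (badPrimes N p)) (kummerFun N p y hy) := by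
  obtain ⟨F, hF, hle⟩ := exists_level_stab N p y hy
  refine ⟨F, hF, fun g s hs => toJ_injective N p ?_⟩
  have hs' : s • y = y := hle hs
  show (g * s) • y - y = g • y - y
  rw [mul_smul, hs']

/-- the Kummer cocycle as an element of `Z¹_sm(G_S, J[p])` -/
def kummerZ (y : JZero N) (hy : ∀ σ : GQ, σ • (p • y) = p • y) :
    (Csm (unrBasis (badPrimes N p)) (torsRep N p)).Z 1 :=
  ⟨Csm.mk₁ (kummerFun N p y hy)
      (Csm.isSm₁_of_cocycle (kummerFun_cocycle N p y hy) (kummerFun_isLC N p y hy)), by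
    rw [Cpx.mem_Z, Csm.d_one_eq_zero_iff]
    intro g h
    rw [Csm.fn₁_mk₁]
    exact (mem_cocycles₁_iff _).1 (kummerFun_cocycle N p y hy) g h⟩

theorem fn₁_kummerZ (y : JZero N) (hy : ∀ σ : GQ, σ • (p • y) = p • y) :
    Csm.fn₁ (kummerZ N p y hy).1 = kummerFun N p y hy := rfl

/-! ### finiteness of `Z¹` -/

/-- **the smooth 1-cocycles of `G_S` with values in `J[p]` form a finite set** (`p` odd) -/
theorem finite_Z1 (hp2 : p ≠ 2) :
    Finite ((Csm (unrBasis (badPrimes N p)) (torsRep N p)).Z 1) := by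
  have hpS := p_mem_badPrimes N p
  set S := badPrimes N p with hS
  haveI : NeZero p := ⟨hp.out.ne_zero⟩
  obtain ⟨ζ, hζ⟩ := HasEnoughRootsOfUnity.exists_primitiveRoot Qbar p
  obtain ⟨F, hF, -, hmem⟩ := exists_level_mem_of_pow_eq_one S hpS 1
    (ζ := ζ) (by rw [pow_one]; exact hζ.pow_eq_one)
  obtain ⟨U₁, hU₁, hU₁le⟩ : (unrBasis S).IsOpen (LocalUnr.U0 ζ) :=
    LocalUnr.isOpen_U0 S ⟨F, hF, hmem⟩
  haveI : Module.Finite ℤ (torsRep N p) := Module.Finite.of_finite
  obtain ⟨U₂, hU₂, hU₂triv⟩ := CFDual.exists_triv_of_finite (unrBasis S) (torsRep N p) (torsRep_isSm N p)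
  obtain ⟨V, hV, hle⟩ := (unrBasis S).directed U₁ hU₁ U₂ hU₂
  have hVU₀ : V ≤ LocalUnr.U0 ζ := (hle.trans inf_le_left).trans hU₁le
  refine finite_Z1_of_trivial_on (unrBasis S) (torsRep N p) (torsRep_nsmul N p) V hV
    (fun v hv a => hU₂triv v ((hle.trans inf_le_right) hv) a) ?_
  exact finite_H1Fp_global hp2 hpS hζ (LocalUnr.U0 ζ) (LocalUnr.U0_fixes ζ) V ⟨V, hV, le_rfl⟩ hVU₀

end Fermat.Agent.S17lib.WMW

end
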