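/-
S17lib / WMW / Main  (helper2) — Project G (S17), block (WMW), file 3.

**Weak Mordell–Weil for `J₀(N)(ℚ)`**: for every level `N` and every ODD `m ≥ 1` the subgroup
`m · J₀(N)(ℚ)` has finite index in `J₀(N)(ℚ) = J₀(N)(ℚ̄)^{G_ℚ}`, in the exact shape of hypothesis `H₁`
of Mathlib's `AddCommGroup.fg_of_descent`:
  `wmw_odd N m hm : (nsmulAddMonoidHom (α := ↥(JQ N)) m).range.FiniteIndex`.
-/
import Mathlib
import Fermat.Agent.S17lib.WMW.Kummer
import Fermat.Agent.S37lib.HeckeInst.Basic

set_option autoImplicit false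
set_option linter.unusedSectionVars false
set_option linter.style.haveILetI false

noncomputable section

namespace Fermat.Agent.S17lib.WMW

open ModularCurve AlgebraicCurve
open Fermat.Agent.S29lib Fermat.Agent.S55lib

local notation "Qb" => AlgebraicClosure ℚ

/-- the rational points `J₀(N)(ℚ) = J₀(N)(ℚ̄)^{G_ℚ}` -/
abbrev JQ (N : ℕ) : AddSubgroup (JZero N) :=
  FixedPoints.addSubgroup (AlgebraicClosure ℚ ≃ₐ[ℚ] AlgebraicClosure ℚ) (JZero N)

/-- **(WMW) at `m`**: `m · J₀(N)(ℚ)` has finite index in `J₀(N)(ℚ)` -/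
def WMWStmt (N m : ℕ) : Prop :=
  (nsmulAddMonoidHom (α := ↥(JQ N)) m).range.FiniteIndex

/-! ### abstract: multiplicativity in `m` -/

section Abstract

variable {G : Type*} [AddCommGroup G]

theorem range_nsmul_mul (a b : ℕ) :
    (nsmulAddMonoidHom (α := G) (a * b)).range =
      ((nsmulAddMonoidHom (α := G) b).range).map (nsmulAddMonoidHom (α := G) a) := by
  ext x
  simp only [AddMonoidHom.mem_range, AddSubgroup.mem_map, nsmulAddMonoidHom_apply]
  constructor
  · rintro ⟨y, rfl⟩
    exact ⟨b • y, ⟨y, rfl⟩, by rw [mul_nsmul']⟩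
  · rintro ⟨_, ⟨y, rfl⟩, rfl⟩
    exact ⟨y, by rw [mul_nsmul']⟩

theorem finiteIndex_range_nsmul_mul {a b : ℕ}
    (ha : (nsmulAddMonoidHom (α := G) a).range.FiniteIndex)
    (hb : (nsmulAddMonoidHom (α := G) b).range.FiniteIndex) :
    (nsmulAddMonoidHom (α := G) (a * b)).range.FiniteIndex := by
  refine ⟨?_⟩
  rw [range_nsmul_mul, AddSubgroup.index_map]
  refine mul_ne_zero ?_ ha.index_ne_zero
  intro h0
  have hle : (nsmulAddMonoidHom (α := G) b).range ≤
      (nsmulAddMonoidHom (α := G) b).range ⊔ (nsmulAddMonoidHom (α := G) a).ker := le_sup_left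
  have hdvd := AddSubgroup.index_dvd_of_le hle
  rw [h0, zero_dvd_iff] at hdvd
  exact hb.index_ne_zero hdvd

theorem finiteIndex_range_nsmul_one : (nsmulAddMonoidHom (α := G) 1).range.FiniteIndex := by
  have h : (nsmulAddMonoidHom (α := G) 1).range = ⊤ := by
    rw [AddMonoidHom.range_eq_top]
    intro x
    exact ⟨x, by simp⟩
  rw [h]
  infer_instance

/-- if `p G` has finite index for every odd prime `p`, then `m G` has finite index for every odd `m` -/
theorem finiteIndex_range_nsmul_of_odd
    (hprime : ∀ p : ℕ, p.Prime → p ≠ 2 → (nsmulAddMonoidHom (α := G) p).range.FiniteIndex)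
    (m : ℕ) (hm : Odd m) : (nsmulAddMonoidHom (α := G) m).range.FiniteIndex := by
  induction m using Nat.recOnMul with
  | zero => exact absurd hm (by decide)
  | one => exact finiteIndex_range_nsmul_one
  | prime p hp =>
    refine hprime p hp ?_
    rintro rfl
    exact absurd hm (by decide)
  | mul a b iha ihb =>
    have hab := Nat.odd_mul.1 hm
    exact finiteIndex_range_nsmul_mul (iha hab.1) (ihb hab.2)

end Abstract

/-! ### the prime case -/

section Prime

variable (N : ℕ) [NeZero N] (p : ℕ) [hp : Fact p.Prime]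

/-- divisibility of `J₀(N)(ℚ̄)` (U1) -/
theorem exists_nsmul_eq (x : JZero N) : ∃ y : JZero N, p • y = x :=
  Fermat.Agent.S15lib.Desc.divisibleAt_Qb hp.out.pos (Fermat.Agent.S37lib.HeckeInst.FB N)
    (Fermat.Agent.S37lib.HeckeInst.jB N) (Fermat.Agent.S37lib.HeckeInst.transcendental_jB N)
    (Fermat.Agent.S37lib.HeckeInst.finiteDimensional_jB N) x

/-- a chosen `p`-division point of a rational point -/
def divPt (x : JQ N) : JZero N := (exists_nsmul_eq N p (x : JZero N)).choose

theorem nsmul_divPt (x : JQ N) : p • divPt N p x = (x : JZero N) :=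
  (exists_nsmul_eq N p (x : JZero N)).choose_spec

theorem gal_nsmul_divPt (x : JQ N) (σ : GQ) :
    σ • (p • divPt N p x) = p • divPt N p x := by
  rw [nsmul_divPt]
  exact (FixedPoints.mem_addSubgroup _ _ _).1 x.2 σ

/-- the Kummer map on cocycles -/
def kummerMap (x : JQ N) : (Csm (unrBasis (badPrimes N p)) (torsRep N p)).Z 1 :=
  kummerZ N p (divPt N p x) (gal_nsmul_divPt N p x)

/-- two rational points with the same Kummer cocycle differ by `p` times a rational point -/
theorem sub_mem_range_of_kummerMap_eq {x x' : JQ N} (h : kummerMap N p x = kummerMap N p x') :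
    x - x' ∈ (nsmulAddMonoidHom (α := ↥(JQ N)) p).range := by
  have hfun : ∀ σ : GQ, σ • divPt N p x - divPt N p x = σ • divPt N p x' - divPt N p x' := by
    intro σ
    have h1 : Csm.fn₁ (kummerMap N p x).1 σ = Csm.fn₁ (kummerMap N p x').1 σ := by rw [h]
    exact congrArg (toJ N p) h1
  have hw : divPt N p x - divPt N p x' ∈ JQ N := by
    rw [FixedPoints.mem_addSubgroup]
    intro σ
    rw [smul_sub]
    have := hfun σ
    rw [sub_eq_sub_iff_add_eq_add] at this ⊢
    rw [this]
    abel
  refine ⟨⟨divPt N p x - divPt N p x', hw⟩, Subtype.ext ?_⟩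
  show p • (divPt N p x - divPt N p x') = (x : JZero N) - (x' : JZero N)
  rw [nsmul_sub, nsmul_divPt, nsmul_divPt]

/-- **weak Mordell–Weil at an odd prime** -/
theorem wmw_prime (hp2 : p ≠ 2) : WMWStmt N p := by
  haveI := finite_Z1 N p hp2
  set R := (nsmulAddMonoidHom (α := ↥(JQ N)) p).range with hR
  have hinj : Function.Injective fun q : ↥(JQ N) ⧸ R => kummerMap N p q.out := by
    intro q q' h
    have h1 := sub_mem_range_of_kummerMap_eq N p h
    rw [← QuotientAddGroup.out_eq' q, ← QuotientAddGroup.out_eq' q', QuotientAddGroup.eq]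
    have : -q.out + q'.out = -(q.out - q'.out) := by abel
    rw [this]
    exact R.neg_mem h1
  haveI : Finite (↥(JQ N) ⧸ R) := Finite.of_injective _ hinj
  exact AddSubgroup.finiteIndex_of_finite_quotient

end Prime

/-- **weak Mordell–Weil for `J₀(N)(ℚ)`, every odd `m`** -/
theorem wmw_odd (N : ℕ) [NeZero N] (m : ℕ) (hm : Odd m) : WMWStmt N m :=
  finiteIndex_range_nsmul_of_odd
    (fun p hp hp2 => haveI : Fact p.Prime := ⟨hp⟩; wmw_prime N p hp2) m hm

end Fermat.Agent.S17lib.WMW

end
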